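import Fermat.Agent.TraceDistribution.Counts
import Fermat.Agent.PrimeDivisors.Product
import Mathlib.NumberTheory.LegendreSymbol.QuadraticChar.Basic

/-!
# The invertible matrices of given trace, in closed form

Scaling identifies all nonzero traces, the discriminant decides for given trace and determinant,
and the Chinese remainder theorem multiplies the counts over the primes.
-/

set_option autoImplicit false
set_option linter.style.haveILetI false

noncomputable section

open Matrix Finset
open scoped Classical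

namespace FA.TraceFactors

variable {k : Type*} [Field k] [Fintype k]

/-- All nonzero traces occur equally often. -/
theorem card_trace_eq_one {t : k} (ht : t ≠ 0) :
    Nat.card {M : GL (Fin 2) k // M.val.trace = t} =
      Nat.card {M : GL (Fin 2) k // M.val.trace = 1} := by
  let s : GL (Fin 2) k := Units.map (Matrix.scalar (Fin 2)).toMonoidHom (Units.mk0 t ht)
  refine (Nat.card_congr ((Equiv.mulLeft s).subtypeEquiv fun M => ?_)).symm
  show M.val.trace = 1 ↔ (Matrix.scalar (Fin 2) t * M.val).trace = t
  rw [trace_fin_two, trace_fin_two]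
  simp only [Matrix.scalar_apply, Matrix.diagonal_mul, ← mul_add]
  exact ⟨fun h => by rw [h, mul_one], fun h => mul_left_cancel₀ ht (h.trans (mul_one t).symm)⟩

/-- **The invertible matrices of given nonzero trace.** -/
theorem card_trace_ne_zero {t : k} (ht : t ≠ 0) :
    Nat.card {M : GL (Fin 2) k // M.val.trace = t} + Fintype.card k ^ 2 + Fintype.card k =
      Fintype.card k ^ 3 := by
  rw [card_trace_eq_one ht]
  have hs : Nat.card (GL (Fin 2) k) = ∑ u : k, Nat.card {M : GL (Fin 2) k // M.val.trace = u} := by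
    rw [← Nat.card_sigma]
    exact Nat.card_congr (Equiv.sigmaFiberEquiv fun M : GL (Fin 2) k => M.val.trace).symm
  rw [← Finset.sum_erase_add _ _ (mem_univ (0 : k)),
    Finset.sum_congr rfl fun u hu => card_trace_eq_one (Finset.ne_of_mem_erase hu),
    Finset.sum_const, Finset.card_erase_of_mem (mem_univ _), Finset.card_univ, smul_eq_mul,
    FA.TraceDist.card_trace_zero, FA.TraceDist.card_gl2] at hs
  obtain ⟨m, hm⟩ := Nat.exists_eq_add_of_le (Fintype.one_lt_card (α := k))
  rw [hm] at hs ⊢
  rw [show Nat.succ 1 + m - 1 = m + 1 by omega,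
    show (Nat.succ 1 + m) ^ 2 - 1 = m ^ 2 + 4 * m + 3 by
      rw [show (Nat.succ 1 + m) ^ 2 = m ^ 2 + 4 * m + 3 + 1 by ring, Nat.add_sub_cancel],
    show (Nat.succ 1 + m) ^ 2 - (Nat.succ 1 + m) = (Nat.succ 1 + m) * (m + 1) by
      rw [show (Nat.succ 1 + m) ^ 2 = (Nat.succ 1 + m) * (m + 1) + (Nat.succ 1 + m) by ring,
        Nat.add_sub_cancel]] at hs
  refine Nat.eq_of_mul_eq_mul_left (show 0 < m + 1 by omega) ?_
  linarith

/-- **The invertible matrices of given trace and determinant.** -/
theorem card_trace_det_gl (hk : ringChar k ≠ 2) (t : k) {d : k} (hd : d ≠ 0) :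
    (Nat.card {M : GL (Fin 2) k // M.val.trace = t ∧ M.val.det = d} : ℤ) =
      Fintype.card k * (Fintype.card k + quadraticChar k (t ^ 2 - 4 * d)) := by
  have e : {M : GL (Fin 2) k // M.val.trace = t ∧ M.val.det = d} ≃
      {M : Matrix (Fin 2) (Fin 2) k // M.trace = t ∧ M.det = d} :=
    { toFun := fun M => ⟨M.1.val, M.2⟩
      invFun := fun M =>
        ⟨Matrix.GeneralLinearGroup.mkOfDetNeZero M.1 (by rw [M.2.2]; exact hd), M.2⟩
      left_inv := fun M => Subtype.ext (Units.ext rfl)
      right_inv := fun M => Subtype.ext rfl }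
  have h2 : (2 : k) ≠ 0 := Ring.two_ne_zero hk
  have hroots : (#{a : k | a * a - t * a + d = 0} : ℤ) = quadraticChar k (t ^ 2 - 4 * d) + 1 := by
    rw [← quadraticChar_card_sqrts hk]
    refine congrArg Nat.cast (Finset.card_bij' (fun a _ => 2 * a - t) (fun x _ => (x + t) / 2)
      (fun a ha => ?_) (fun x hx => ?_) (fun a _ => ?_) fun x _ => ?_)
    · rw [Finset.mem_filter] at ha
      rw [Set.mem_toFinset]
      show (2 * a - t) ^ 2 = _
      linear_combination 4 * ha.2
    · rw [Set.mem_toFinset] at hx
      replace hx : x ^ 2 = t ^ 2 - 4 * d := hx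
      rw [Finset.mem_filter]
      refine ⟨Finset.mem_univ _, ?_⟩
      field_simp
      linear_combination hx
    · field_simp
      ring
    · field_simp
      ring
  rw [Nat.card_congr e]
  have h := FA.TraceDist.card_trace_det t d
  have hZ : (Nat.card {M : Matrix (Fin 2) (Fin 2) k // M.trace = t ∧ M.det = d} : ℤ) +
      Fintype.card k = (Fintype.card k : ℤ) ^ 2 +
        Fintype.card k * (#{a : k | a * a - t * a + d = 0} : ℤ) := by exact_mod_cast h
  rw [hroots] at hZ
  linear_combination hZ

/-- **The counts multiply over the primes.** -/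
theorem card_trace_level (L : Finset ℕ) (hL : ∀ l ∈ L, l.Prime) (t : ℤ) :
    Nat.card {M : GL (Fin 2) (ZMod (FA.PrimeDivisors.level L)) // M.val.trace = (t : ZMod _)} =
      ∏ l : L, Nat.card {M : GL (Fin 2) (ZMod (l : ℕ)) // M.val.trace = (t : ZMod (l : ℕ))} ∧
    Nat.card (GL (Fin 2) (ZMod (FA.PrimeDivisors.level L))) =
      ∏ l : L, Nat.card (GL (Fin 2) (ZMod (l : ℕ))) := by
  have hcop : Pairwise (Function.onFun Nat.Coprime fun l : L => (l : ℕ)) := fun i j hij =>
    (Nat.coprime_primes (hL i i.2) (hL j j.2)).mpr fun h => hij (Subtype.ext h)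
  let e : ZMod (FA.PrimeDivisors.level L) ≃+* ∀ l : L, ZMod (l : ℕ) := ZMod.prodEquivPi _ hcop
  have he : ∀ (x : ZMod (FA.PrimeDivisors.level L)) (l : L),
      e x l = ZMod.castHom (FA.PrimeDivisors.dvd_level L l) _ x := fun x l =>
    ZMod.prodEquivPi_apply _ hcop x l
  have hinj : Function.Injective (FA.PrimeDivisors.toProd L) := fun M M' h =>
    Units.ext (Matrix.ext fun i j => e.injective (funext fun l => by
      rw [he, he]
      exact congrArg (fun g : GL (Fin 2) (ZMod (l : ℕ)) => g.val i j) (congrFun h l)))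
  let φ := Equiv.ofBijective _ ⟨hinj, FA.PrimeDivisors.toProd_surjective L hL⟩
  refine ⟨?_, (Nat.card_congr φ).trans Nat.card_pi⟩
  refine (Nat.card_congr ((φ.subtypeEquiv (q := fun g : ∀ l : L, GL (Fin 2) (ZMod (l : ℕ)) =>
    ∀ l : L, (g l).val.trace = (t : ZMod (l : ℕ))) fun M => ?_).trans
      (Equiv.subtypePiEquivPi (p := fun (l : L) (g : GL (Fin 2) (ZMod (l : ℕ))) =>
        g.val.trace = (t : ZMod (l : ℕ)))))).trans Nat.card_pi
  have key : ∀ l : L, (φ M l).val.trace =
      ZMod.castHom (FA.PrimeDivisors.dvd_level L l) _ M.val.trace := fun l => by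
    rw [trace_fin_two, trace_fin_two, map_add]
    rfl
  constructor
  · intro h l
    rw [key, h, map_intCast]
  · intro h
    refine e.injective (funext fun l => ?_)
    rw [he, he, ← key, h, map_intCast]

end FA.TraceFactors

end
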